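/-
S55 / block EXIST : definitions of the arithmetic layer ("Layer A").
`K` a number field containing `μ_p`, `T` a finite set of finite places containing the places
over `p`.  Everything local is expressed through subgroups of `Kˣ` (`LocData` of NIT/SI) and an
abstract family of local symbols `SymbData`.
-/
import Fermat.Agent.S55.NIT.SI.Defs

set_option autoImplicit false

namespace Fermat.Agent.S55.Exist

open IsDedekindDomain NumberField Fermat.Agent.S55.NIT.SI

noncomputable section

variable (p : ℕ) (K : Type*) [Field K] [NumberField K]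

/-- The normalised additive valuation `ord_v : Kˣ → ℤ` (a uniformiser has `ord = 1`). -/
def ord (v : Pl K) : Additive Kˣ →+ ℤ :=
  -(MonoidHom.toAdditiveLeft (v.valuationOfNeZero (K := K)))

variable {K} in
theorem valuation_eq_exp_neg_ord (v : Pl K) (x : Kˣ) :
    v.valuation K (x : K) = WithZero.exp (-(ord K v (Additive.ofMul x))) := by
  rw [← HeightOneSpectrum.valuationOfNeZero_eq]
  simp [ord, WithZero.exp]

variable {K} in
theorem ord_eq_zero_iff (v : Pl K) (x : Kˣ) :
    ord K v (Additive.ofMul x) = 0 ↔ v.valuation K (x : K) = 1 := by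
  rw [valuation_eq_exp_neg_ord, ← WithZero.exp_zero, WithZero.exp_inj]
  omega

variable {K} in
theorem finite_support_val (x : Kˣ) : {v : Pl K | v.valuation K (x : K) ≠ 1}.Finite := by
  have h := HeightOneSpectrum.Support.finite (𝓞 K) (x : K)
  have h' := HeightOneSpectrum.Support.finite (𝓞 K) ((x⁻¹ : Kˣ) : K)
  refine (h.union h').subset fun v hv => ?_
  simp only [Set.mem_ofPred_eq] at hv
  rcases lt_or_gt_of_ne hv with h1 | h1
  · right
    show 1 < v.valuation K ((x⁻¹ : Kˣ) : K)
    rw [Units.val_inv_eq_inv_val, map_inv₀]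
    exact (one_lt_inv₀ (by simp [zero_lt_iff])).2 h1
  · left; exact h1

/-- The group of divisors prime to `T`. -/
abbrev Dv (T : Finset (Pl K)) : Type _ := {v : Pl K // v ∉ T} →₀ ℤ

/-- The divisor map `Kˣ → ⨁_{v ∉ T} ℤ`. -/
def divT (T : Finset (Pl K)) : Additive Kˣ →+ Dv K T where
  toFun x := Finsupp.ofSupportFinite (fun v => ord K v.1 x) (by
    have h := finite_support_val (Additive.toMul x)
    refine (h.preimage Subtype.val_injective.injOn).subset fun v hv => ?_
    simp only [Function.mem_support] at hv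
    simp only [Set.mem_preimage, Set.mem_ofPred_eq]
    intro h1
    exact hv ((ord_eq_zero_iff v.1 (Additive.toMul x)).2 h1))
  map_zero' := by
    ext v
    simp [Finsupp.ofSupportFinite_coe]
  map_add' x y := by
    ext v
    simp [Finsupp.ofSupportFinite_coe]

variable {K} in
@[simp] theorem divT_apply (T : Finset (Pl K)) (x : Additive Kˣ) (v : {v : Pl K // v ∉ T}) :
    divT K T x v = ord K v.1 x := rfl

/-- `p ∣ ord_v x`, in valuation form. -/
def PDiv (v : Pl K) (x : Kˣ) : Prop :=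
  ∃ c : Kˣ, v.valuation K (x : K) = v.valuation K (c : K) ^ p

/-- `V^T = {a ∈ Kˣ : p ∣ ord_v a for all v ∉ T}`. -/
def VS (T : Finset (Pl K)) : Subgroup Kˣ where
  carrier := {a | ∀ v : Pl K, v ∉ T → PDiv p K v a}
  one_mem' := fun v _ => ⟨1, by simp⟩
  mul_mem' := by
    intro a b ha hb v hv
    obtain ⟨c, hc⟩ := ha v hv
    obtain ⟨c', hc'⟩ := hb v hv
    exact ⟨c * c', by rw [Units.val_mul, map_mul, hc, hc', Units.val_mul, map_mul, mul_pow]⟩
  inv_mem' := by
    intro a ha v hv
    obtain ⟨c, hc⟩ := ha v hv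
    exact ⟨c⁻¹, by
      rw [Units.val_inv_eq_inv_val, map_inv₀, hc, Units.val_inv_eq_inv_val, map_inv₀, inv_pow]⟩

/-- `V_T = {a ∈ V^T : a is a local p-th power at all w ∈ T}`. -/
def VT (D : LocData p K) (T : Finset (Pl K)) : Subgroup Kˣ := VS p K T ⊓ ⨅ w ∈ T, D.pow w

variable {p K} in
theorem mem_VS {T : Finset (Pl K)} {a : Kˣ} :
    a ∈ VS p K T ↔ ∀ v : Pl K, v ∉ T → PDiv p K v a := Iff.rfl

variable {p K} in
theorem mem_VT {D : LocData p K} {T : Finset (Pl K)} {a : Kˣ} :
    a ∈ VT p K D T ↔ (∀ v : Pl K, v ∉ T → PDiv p K v a) ∧ ∀ w ∈ T, a ∈ D.pow w := by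
  simp [VT, Subgroup.mem_inf, Subgroup.mem_iInf, mem_VS]

/-- An abstract family of local symbols `(a, b)_v ∈ ℤ/p` on global elements: bimultiplicative,
trivial on local `p`-th powers, left non-degenerate, trivial on pairs of units away from `p`, and
satisfying the product formula. -/
structure SymbData (D : LocData p K) where
  h : Pl K → Kˣ → Kˣ → ZMod p
  mul_left : ∀ (v : Pl K) (a a' b : Kˣ), h v (a * a') b = h v a b + h v a' b
  mul_right : ∀ (v : Pl K) (a b b' : Kˣ), h v a (b * b') = h v a b + h v a b'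
  pow_left : ∀ (v : Pl K) (a b : Kˣ), a ∈ D.pow v → h v a b = 0
  pow_right : ∀ (v : Pl K) (a b : Kˣ), b ∈ D.pow v → h v a b = 0
  nondeg : ∀ (v : Pl K) (a : Kˣ), (∀ b : Kˣ, h v a b = 0) → a ∈ D.pow v
  unit : ∀ v : Pl K, ¬ Over p K v → ∀ a ∈ Uv K v, ∀ b ∈ Uv K v, h v a b = 0
  recip : ∀ (a b : Kˣ) (R : Finset (Pl K)),
    (∀ v : Pl K, v ∉ R → ¬ Over p K v ∧ a ∈ Uv K v ∧ b ∈ Uv K v) → ∑ v ∈ R, h v a b = 0

end

end Fermat.Agent.S55.Exist
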