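/-
S55 / block EXIST : semi-local symbols (indexed by the rational primes `q`), the form in which the
cohomological construction delivers them.
-/
import Fermat.Agent.S55.Exist.Defs

set_option autoImplicit false

namespace Fermat.Agent.S55.Exist

open IsDedekindDomain NumberField Fermat.Agent.S55.NIT.SI

variable (p : ℕ) (K : Type*) [Field K] [NumberField K]

/-- A family of semi-local symbols `(a, b)_q = ∑_{v ∣ q} (a, b)_v ∈ ℤ/p` on global elements:
bimultiplicative, trivial if `b` is a local norm from `K(a^(1/p))` at all `v ∣ q`, left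
non-degenerate modulo the elements which are local `p`-th powers at all `v ∣ q`, product formula. -/
structure QSymb (D : LocData p K) where
  h : Nat.Primes → Kˣ → Kˣ → ZMod p
  mul_left : ∀ (q : Nat.Primes) (a a' b : Kˣ), h q (a * a') b = h q a b + h q a' b
  mul_right : ∀ (q : Nat.Primes) (a b b' : Kˣ), h q a (b * b') = h q a b + h q a b'
  norm : ∀ (q : Nat.Primes) (a b : Kˣ), (∀ v : Pl K, Over (q : ℕ) K v → b ∈ D.nrm a v) →
    h q a b = 0
  nondeg : ∀ (q : Nat.Primes) (a : Kˣ), (∀ b : Kˣ, h q a b = 0) →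
    ∀ v : Pl K, Over (q : ℕ) K v → a ∈ D.pow v
  recip : ∀ (a b : Kˣ) (R : Finset Nat.Primes),
    (∀ q : Nat.Primes, q ∉ R → ∀ v : Pl K, Over (q : ℕ) K v →
      ¬ Over p K v ∧ a ∈ Uv K v ∧ b ∈ Uv K v) → ∑ q ∈ R, h q a b = 0

/-- Weak approximation modulo local `p`-th powers. -/
def WeakApprox (D : LocData p K) : Prop :=
  ∀ (T : Finset (Pl K)) (x : Pl K → Kˣ), ∃ y : Kˣ, ∀ v ∈ T, y / x v ∈ D.pow v

end Fermat.Agent.S55.Exist
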