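/-
S55 / block EXIST : two small glue nodes between the layers.
* `weakApprox_locData` : weak approximation modulo local `p`-th powers for the concrete `LocData`;
* `needB3Q_of_brPkg`   : reciprocity over `ℚ` from the Brauer package (B3 at `U = ⊤`).
-/
import Fermat.Agent.S55.Exist.Kum.Defs
import Fermat.Agent.S55.Arith.BrInterface
import Fermat.Agent.S55.Coh.ResApi
import Fermat.Agent.S55.Coh.IndApi
import Fermat.Agent.S55.NIT.Inst.Instance
import Fermat.Agent.S55.NIT.Inst.WeakApproxUnits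

set_option autoImplicit false

namespace Fermat.Agent.S55.Exist

open IsDedekindDomain NumberField Fermat.Agent.S55.NIT.SI

section WA

variable {p : ℕ} {K : Type*} [Field K] [NumberField K]

theorem pu_le_pu (v : Pl K) {m n : ℕ} (h : m ≤ n) : NIT.pu v n ≤ NIT.pu v m := by
  intro x hx
  refine lt_of_lt_of_le (show v.valuation K ((x : K) - 1) < WithZero.exp (-(n : ℤ)) from hx) ?_
  rw [WithZero.exp_le_exp]
  omega

theorem exists_pu_le_locPow (hp : p.Prime) (v : Pl K) : ∃ n : ℕ, NIT.pu v n ≤ NIT.locPow K p v := by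
  obtain ⟨e, he, -⟩ := NIT.Inst.exists_val_natCast v hp.ne_zero
  exact ⟨2 * e, by rw [NIT.Inst.Fin.locPow_eq hp v he]; exact le_sup_right⟩

theorem weakApprox_locData (hp : p.Prime) (hp2 : p ≠ 2) {ζ : K} (hζ : IsPrimitiveRoot ζ p) :
    WeakApprox p K (NIT.Inst.locData hp hp2 hζ) := by
  intro T x
  choose n hn using exists_pu_le_locPow (K := K) hp
  obtain ⟨y, hy⟩ := NIT.Inst.weak_approx_units T x (T.sup n)
  exact ⟨y, fun v hv => hn v (pu_le_pu v (Finset.le_sup hv) (hy v hv))⟩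

end WA

section B3

variable {p : ℕ} {L : ∀ q : Nat.Primes, LocPkg p q}

theorem needB3Q_of_brPkg (B : BrPkg p L) : NeedB3Q p L := by
  intro x hx R hR
  have hopen : lvlAll.IsOpen (⊤ : Subgroup GQ) := by
    obtain ⟨N, hN⟩ := lvlAll.nonempty
    exact ⟨N, hN, le_top⟩
  have hfin : Finite (GQ ⧸ (⊤ : Subgroup GQ)) := inferInstance
  have hcard : Nat.card (GQ ⧸ (⊤ : Subgroup GQ)) = 1 := by
    rw [← Subgroup.index, Subgroup.index_top]
  set X := GQ ⧸ (⊤ : Subgroup GQ) with hX
  set x' : Hsm lvlAll (IndMod X Kx) 2 := Hsm.map (IndMod.const X Kx) 2 x with hx'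
  have hloc : ∀ q : Nat.Primes, locA (IndMod X Kx) q 2 x' =
      Hsm.map (ResMod.map (ιv q) (IndMod.const X Kx)) 2 (locA Kx q 2 x) := fun q =>
    Hsm.res_map (ιv q) _ (IndMod.const X Kx) 2 x
  have hinv : ∀ q : Nat.Primes, invX (L q) X (locA (IndMod X Kx) q 2 x') =
      (L q).inv (locA Kx q 2 x) := by
    intro q
    rw [hloc q]
    show (L q).inv (Hsm.map (ResMod.map (ιv q) (IndMod.sum X Kx)) 2
      (Hsm.map (ResMod.map (ιv q) (IndMod.const X Kx)) 2 (locA Kx q 2 x))) = _
    rw [← Hsm.map_comp, Hsm.map_id']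
    intro a
    show ResMod.toRes (ιv q) (IndMod.sum (G := GQ) X Kx (IndMod.const (G := GQ) X Kx
      ((ResMod.toRes (ιv q)).symm a))) = a
    rw [IndMod.sum_const, hcard, one_smul, AddEquiv.apply_symm_apply]
  have h := B.B3 ⊤ hopen hfin x' ⟨1, by rw [pow_one, hx', ← map_nsmul, hx, map_zero]⟩ R
    (fun q hq => by rw [hloc q, hR q hq, map_zero])
  rw [← h]
  exact Finset.sum_congr rfl fun q _ => (hinv q).symm

end B3

end Fermat.Agent.S55.Exist
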