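/-
S55 / EXIST, node EXIST-Q-1 (owner helper162): rational primes below the places of a number field.
-/
import Fermat.Agent.S55.Exist.QDefs

set_option autoImplicit false

namespace Fermat.Agent.S55.Exist

open IsDedekindDomain NumberField Fermat.Agent.S55.NIT.SI Fermat.Agent.S55.Exist

variable {p : ℕ} {K : Type*} [Field K] [NumberField K]

theorem exists_over (v : Pl K) : ∃ q : Nat.Primes, Over (q : ℕ) K v := by
  classical
  have hex : ∃ n : ℕ, 0 < n ∧ (n : 𝓞 K) ∈ v.asIdeal :=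
    ⟨Ideal.absNorm v.asIdeal,
      Nat.pos_of_ne_zero (fun h => v.ne_bot (Ideal.absNorm_eq_zero_iff.mp h)),
      Ideal.absNorm_mem v.asIdeal⟩
  obtain ⟨hpos, hmem⟩ := Nat.find_spec hex
  set n := Nat.find hex with hn
  have hn1 : n ≠ 1 := by
    intro h1
    rw [h1, Nat.cast_one] at hmem
    exact v.isPrime.ne_top ((Ideal.eq_top_iff_one _).mpr hmem)
  have hq : n.minFac.Prime := Nat.minFac_prime hn1
  refine ⟨⟨n.minFac, hq⟩, ?_⟩
  have hmul : n.minFac * (n / n.minFac) = n := Nat.mul_div_cancel' (Nat.minFac_dvd n)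
  have hmem' : ((n.minFac : ℕ) : 𝓞 K) * ((n / n.minFac : ℕ) : 𝓞 K) ∈ v.asIdeal := by
    rw [← Nat.cast_mul, hmul]
    exact hmem
  rcases v.isPrime.mem_or_mem hmem' with h | h
  · exact h
  · exfalso
    have hlt : n / n.minFac < n := Nat.div_lt_self hpos hq.one_lt
    have hpos' : 0 < n / n.minFac := Nat.div_pos (Nat.minFac_le hpos) hq.pos
    exact Nat.find_min hex hlt ⟨hpos', h⟩

theorem over_unique (v : Pl K) (q q' : Nat.Primes) (h : Over (q : ℕ) K v)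
    (h' : Over (q' : ℕ) K v) : q = q' := by
  by_contra hne
  have hcop : Nat.Coprime (q : ℕ) (q' : ℕ) :=
    (Nat.coprime_primes q.2 q'.2).mpr (fun e => hne (Subtype.ext e))
  obtain ⟨a, b, hab⟩ := Nat.isCoprime_iff_coprime.mpr hcop
  have h1 : ((a * (q : ℕ) + b * (q' : ℕ) : ℤ) : 𝓞 K) = 1 := by rw [hab, Int.cast_one]
  push_cast at h1
  have hmem : (1 : 𝓞 K) ∈ v.asIdeal := by
    rw [← h1]
    exact v.asIdeal.add_mem (v.asIdeal.mul_mem_left _ h) (v.asIdeal.mul_mem_left _ h')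
  exact v.isPrime.ne_top ((Ideal.eq_top_iff_one _).mpr hmem)

theorem finite_over (q : Nat.Primes) : {v : Pl K | Over (q : ℕ) K v}.Finite := by
  have hq0 : ((q : ℕ) : 𝓞 K) ≠ 0 := Nat.cast_ne_zero.mpr q.2.ne_zero
  have hI : Ideal.span {((q : ℕ) : 𝓞 K)} ≠ 0 := by
    rw [Ne, Ideal.zero_eq_bot, Ideal.span_singleton_eq_bot]
    exact hq0
  refine (Ideal.finite_factors hI).subset ?_
  intro v hv
  show v.asIdeal ∣ Ideal.span {((q : ℕ) : 𝓞 K)}
  rw [Ideal.dvd_iff_le, Ideal.span_singleton_le_iff_mem]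
  exact hv

theorem exists_place_over (q : Nat.Primes) : ∃ v : Pl K, Over (q : ℕ) K v := by
  have : Fact (Nat.Prime (q : ℕ)) := ⟨q.2⟩
  obtain ⟨Q, hQmax, hQ⟩ := Ideal.exists_ideal_over_maximal_of_isIntegral (S := 𝓞 K)
    (Ideal.span {((q : ℕ) : ℤ)}) (by
      rw [(RingHom.injective_iff_ker_eq_bot _).mp (FaithfulSMul.algebraMap_injective ℤ (𝓞 K))]
      exact bot_le)
  have hmem : ((q : ℕ) : 𝓞 K) ∈ Q := by
    have h1 : ((q : ℕ) : ℤ) ∈ Q.comap (algebraMap ℤ (𝓞 K)) := by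
      rw [hQ]
      exact Ideal.subset_span rfl
    rw [Ideal.mem_comap] at h1
    simpa using h1
  have hq0 : ((q : ℕ) : 𝓞 K) ≠ 0 := Nat.cast_ne_zero.mpr q.2.ne_zero
  refine ⟨⟨Q, hQmax.isPrime, ?_⟩, hmem⟩
  rintro rfl
  exact hq0 ((Ideal.mem_bot).mp hmem)

end Fermat.Agent.S55.Exist
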