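/-
S55 / EXIST, node EXIST-Q-2 : formal properties of semi-local symbols `QSymb`, localizers.
-/
import Fermat.Agent.S55.Exist.QDefs

set_option autoImplicit false

namespace Fermat.Agent.S55.Exist

open IsDedekindDomain NumberField Fermat.Agent.S55.NIT.SI Fermat.Agent.S55.Exist

variable {p : ℕ} {K : Type*} [Field K] [NumberField K]

/-! ### EXIST-Q-2 (file QBasic.lean) -/

theorem qh_one_right {D : LocData p K} (Q : QSymb p K D) (q : Nat.Primes) (a : Kˣ) :
    Q.h q a 1 = 0 := by
  have h := Q.mul_right q a 1 1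
  rw [mul_one] at h
  exact add_eq_left.1 h.symm

theorem qh_div_right {D : LocData p K} (Q : QSymb p K D) (q : Nat.Primes) (a b b' : Kˣ) :
    Q.h q a (b / b') = Q.h q a b - Q.h q a b' := by
  have h := Q.mul_right q a (b / b') b'
  rw [div_mul_cancel] at h
  rw [h, add_sub_cancel_right]

theorem qh_div_left {D : LocData p K} (Q : QSymb p K D) (q : Nat.Primes) (a a' b : Kˣ) :
    Q.h q (a / a') b = Q.h q a b - Q.h q a' b := by
  have h := Q.mul_left q (a / a') a' b
  rw [div_mul_cancel] at h
  rw [h, add_sub_cancel_right]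

theorem qh_prod_right {D : LocData p K} (Q : QSymb p K D) (q : Nat.Primes) (a : Kˣ) {ι : Type*}
    (s : Finset ι) (b : ι → Kˣ) : Q.h q a (∏ i ∈ s, b i) = ∑ i ∈ s, Q.h q a (b i) := by
  classical
  induction s using Finset.induction_on with
  | empty => rw [Finset.prod_empty, Finset.sum_empty, qh_one_right]
  | insert i s hi ih => rw [Finset.prod_insert hi, Finset.sum_insert hi, Q.mul_right, ih]

/-- orthogonality: at every `v ∣ q` one of the two arguments is a local `p`-th power -/
theorem qh_eq_zero_of_pow {D : LocData p K} (Q : QSymb p K D) (q : Nat.Primes) (a b : Kˣ)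
    (h : ∀ v : Pl K, Over (q : ℕ) K v → a ∈ D.pow v ∨ b ∈ D.pow v) : Q.h q a b = 0 := by
  refine Q.norm q a b fun v hv => ?_
  rcases h v hv with ha | hb
  · rw [D.nrm_eq_top a v ha]
    exact Subgroup.mem_top b
  · exact D.pow_le_nrm a v hb

private theorem finite_over_aux (q : Nat.Primes) : {v : Pl K | Over (q : ℕ) K v}.Finite := by
  have hne : Ideal.span {((q : ℕ) : 𝓞 K)} ≠ ⊥ := by
    rw [Ne, Ideal.span_singleton_eq_bot]
    exact_mod_cast q.2.ne_zero
  refine (Ideal.finite_factors hne).subset fun v hv => ?_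
  show v.asIdeal ∣ Ideal.span {((q : ℕ) : 𝓞 K)}
  rw [Ideal.dvd_span_singleton]
  exact hv

theorem exists_localizer {D : LocData p K} (hWA : WeakApprox p K D) (q : Nat.Primes) (v : Pl K)
    (b : Kˣ) : ∃ c : Kˣ, c / b ∈ D.pow v ∧
      ∀ v' : Pl K, Over (q : ℕ) K v' → v' ≠ v → c ∈ D.pow v' := by
  classical
  obtain ⟨y, hy⟩ := hWA ((finite_over_aux (K := K) q).toFinset ∪ {v})
    (fun v' => if v' = v then b else 1)
  refine ⟨y, ?_, fun v' hv' hne => ?_⟩
  · have := hy v (Finset.mem_union_right _ (Finset.mem_singleton_self v))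
    rwa [if_pos rfl] at this
  · have := hy v' (Finset.mem_union_left _ ((finite_over_aux (K := K) q).mem_toFinset.2 hv'))
    rwa [if_neg hne, div_one] at this

end Fermat.Agent.S55.Exist
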