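/-
S55 / EXIST-Q-3 : the place-wise symbols `SymbData` from the semi-local symbols `QSymb`.
`h_v(a, b) := h_q(a, c)`, `q` the prime below `v`, `c` a localizer of `b` at `v`.
-/
import Fermat.Agent.S55.Exist.PrimesOver
import Fermat.Agent.S55.Exist.QBasic

set_option autoImplicit false

namespace Fermat.Agent.S55.Exist

open IsDedekindDomain NumberField Fermat.Agent.S55.NIT.SI Fermat.Agent.S55.Exist

variable {p : ℕ} {K : Type*} [Field K] [NumberField K]

namespace PlaceSymb

/-- `c` is a localizer of `b` at `v` (relative to the rational prime `q`). -/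
def IsLoc (D : LocData p K) (q : Nat.Primes) (v : Pl K) (b c : Kˣ) : Prop :=
  c / b ∈ D.pow v ∧ ∀ v' : Pl K, Over (q : ℕ) K v' → v' ≠ v → c ∈ D.pow v'

/-- the rational prime below `v` -/
noncomputable def below (v : Pl K) : Nat.Primes := (exists_over v).choose

theorem below_spec (v : Pl K) : Over (below v : ℕ) K v := (exists_over v).choose_spec

theorem below_eq {v : Pl K} {q : Nat.Primes} (h : Over (q : ℕ) K v) : below v = q :=
  over_unique v _ _ (below_spec v) h

/-- a chosen localizer -/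
noncomputable def loc {D : LocData p K} (hWA : WeakApprox p K D) (v : Pl K) (b : Kˣ) : Kˣ :=
  (exists_localizer hWA (below v) v b).choose

theorem loc_spec {D : LocData p K} (hWA : WeakApprox p K D) (v : Pl K) (b : Kˣ) :
    IsLoc D (below v) v b (loc hWA v b) :=
  (exists_localizer hWA (below v) v b).choose_spec

/-- the place-wise symbol -/
noncomputable def hv {D : LocData p K} (hWA : WeakApprox p K D) (Q : QSymb p K D) (v : Pl K)
    (a b : Kˣ) : ZMod p := Q.h (below v) a (loc hWA v b)

theorem qh_eq_of_isLoc {D : LocData p K} (Q : QSymb p K D) {q : Nat.Primes} {v : Pl K}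
    {b c c' : Kˣ} (hc : IsLoc D q v b c) (hc' : IsLoc D q v b c') (a : Kˣ) :
    Q.h q a c = Q.h q a c' := by
  have h0 : Q.h q a (c / c') = 0 := by
    refine qh_eq_zero_of_pow Q q a _ fun v' hv' => Or.inr ?_
    by_cases hvv : v' = v
    · subst hvv
      have : c / c' = (c / b) / (c' / b) := by rw [div_div_div_cancel_right]
      rw [this]
      exact (D.pow v').div_mem hc.1 hc'.1
    · exact (D.pow v').div_mem (hc.2 v' hv' hvv) (hc'.2 v' hv' hvv)
  rw [qh_div_right] at h0
  exact sub_eq_zero.1 h0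

theorem hv_eq {D : LocData p K} (hWA : WeakApprox p K D) (Q : QSymb p K D) {q : Nat.Primes}
    {v : Pl K} (hq : Over (q : ℕ) K v) {b c : Kˣ} (hc : IsLoc D q v b c) (a : Kˣ) :
    hv hWA Q v a b = Q.h q a c := by
  obtain rfl := below_eq hq
  exact qh_eq_of_isLoc Q (loc_spec hWA v b) hc a

theorem IsLoc.mul {D : LocData p K} {q : Nat.Primes} {v : Pl K} {b b' c c' : Kˣ}
    (hc : IsLoc D q v b c) (hc' : IsLoc D q v b' c') : IsLoc D q v (b * b') (c * c') := by
  refine ⟨?_, fun v' hv' hvv => (D.pow v').mul_mem (hc.2 v' hv' hvv) (hc'.2 v' hv' hvv)⟩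
  have : c * c' / (b * b') = (c / b) * (c' / b') := by rw [mul_div_mul_comm]
  rw [this]
  exact (D.pow v).mul_mem hc.1 hc'.1

theorem hv_pow_left {D : LocData p K} (hWA : WeakApprox p K D) (Q : QSymb p K D) (v : Pl K)
    (a b : Kˣ) (ha : a ∈ D.pow v) : hv hWA Q v a b = 0 := by
  refine qh_eq_zero_of_pow Q _ a _ fun v' hv' => ?_
  by_cases hvv : v' = v
  · subst hvv; exact Or.inl ha
  · exact Or.inr ((loc_spec hWA v b).2 v' hv' hvv)

theorem IsLoc.mem_pow {D : LocData p K} {q : Nat.Primes} {v : Pl K} {b c : Kˣ}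
    (hc : IsLoc D q v b c) (hb : b ∈ D.pow v) : c ∈ D.pow v := by
  have : c = (c / b) * b := by rw [div_mul_cancel]
  rw [this]
  exact (D.pow v).mul_mem hc.1 hb

theorem hv_pow_right {D : LocData p K} (hWA : WeakApprox p K D) (Q : QSymb p K D) (v : Pl K)
    (a b : Kˣ) (hb : b ∈ D.pow v) : hv hWA Q v a b = 0 := by
  refine qh_eq_zero_of_pow Q _ a _ fun v' hv' => Or.inr ?_
  by_cases hvv : v' = v
  · subst hvv; exact (loc_spec hWA v' b).mem_pow hb
  · exact (loc_spec hWA v b).2 v' hv' hvv

theorem hv_nondeg {D : LocData p K} (hWA : WeakApprox p K D) (Q : QSymb p K D) (v : Pl K)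
    (a : Kˣ) (h : ∀ b : Kˣ, hv hWA Q v a b = 0) : a ∈ D.pow v := by
  set q := below v with hq
  have ha' := loc_spec hWA v a
  set a' := loc hWA v a with ha'def
  have key : ∀ b : Kˣ, Q.h q a' b = 0 := by
    intro b
    have hc := loc_spec hWA v b
    set c := loc hWA v b with hcdef
    have h1 : Q.h q a' (b / c) = 0 := by
      refine qh_eq_zero_of_pow Q q a' _ fun v' hv' => ?_
      by_cases hvv : v' = v
      · subst hvv
        right
        have : b / c = (c / b)⁻¹ := by rw [inv_div]
        rw [this]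
        exact (D.pow v').inv_mem hc.1
      · exact Or.inl (ha'.2 v' hv' hvv)
    have h2 : Q.h q (a' / a) c = 0 := by
      refine qh_eq_zero_of_pow Q q _ c fun v' hv' => ?_
      by_cases hvv : v' = v
      · subst hvv; exact Or.inl ha'.1
      · exact Or.inr (hc.2 v' hv' hvv)
    have h3 : Q.h q a c = 0 := h b
    rw [qh_div_right] at h1
    rw [qh_div_left] at h2
    rw [sub_eq_zero.1 h1, sub_eq_zero.1 h2, h3]
  have hmem : a' ∈ D.pow v := Q.nondeg q a' key v (below_spec v)
  have : a = a' / (a' / a) := by rw [div_div_cancel]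
  rw [this]
  exact (D.pow v).div_mem hmem ha'.1

theorem hv_unit {D : LocData p K} (hWA : WeakApprox p K D) (Q : QSymb p K D) (v : Pl K)
    (hp : ¬ Over p K v) (a : Kˣ) (ha : a ∈ Uv K v) (b : Kˣ) (hb : b ∈ Uv K v) :
    hv hWA Q v a b = 0 := by
  refine Q.norm _ a _ fun v' hv' => ?_
  have hc := loc_spec hWA v b
  by_cases hvv : v' = v
  · subst hvv
    have : loc hWA v' b = (loc hWA v' b / b) * b := by rw [div_mul_cancel]
    rw [this]
    exact (D.nrm a v').mul_mem (D.pow_le_nrm a v' hc.1) (D.unit_le_nrm a v' hp ha hb)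
  · exact D.pow_le_nrm a v' (hc.2 v' hv' hvv)

/-- the semi-local symbol is the sum of the place-wise ones -/
theorem sum_hv {D : LocData p K} (hWA : WeakApprox p K D) (Q : QSymb p K D) (q : Nat.Primes)
    (a b : Kˣ) : ∑ v ∈ (finite_over (K := K) q).toFinset, hv hWA Q v a b = Q.h q a b := by
  classical
  set s := (finite_over (K := K) q).toFinset with hs
  have hmem : ∀ v, v ∈ s ↔ Over (q : ℕ) K v := fun v => by simp [hs]
  have hloc : ∀ v ∈ s, IsLoc D q v b (loc hWA v b) := by
    intro v hv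
    have := loc_spec hWA v b
    rwa [below_eq ((hmem v).1 hv)] at this
  have h1 : ∑ v ∈ s, hv hWA Q v a b = ∑ v ∈ s, Q.h q a (loc hWA v b) :=
    Finset.sum_congr rfl fun v hv => hv_eq hWA Q ((hmem v).1 hv) (hloc v hv) a
  rw [h1, ← qh_prod_right]
  have h0 : Q.h q a ((∏ v ∈ s, loc hWA v b) / b) = 0 := by
    refine qh_eq_zero_of_pow Q q a _ fun v' hv' => Or.inr ?_
    have hv's : v' ∈ s := (hmem v').2 hv'
    rw [← Finset.mul_prod_erase s _ hv's, mul_div_right_comm]
    refine (D.pow v').mul_mem (hloc v' hv's).1 (Subgroup.prod_mem _ fun v hv => ?_)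
    rw [Finset.mem_erase] at hv
    exact (hloc v hv.2).2 v' hv' (Ne.symm hv.1)
  rw [qh_div_right] at h0
  exact sub_eq_zero.1 h0

theorem hv_recip {D : LocData p K} (hWA : WeakApprox p K D) (Q : QSymb p K D) (a b : Kˣ)
    (R : Finset (Pl K))
    (hR : ∀ v : Pl K, v ∉ R → ¬ Over p K v ∧ a ∈ Uv K v ∧ b ∈ Uv K v) :
    ∑ v ∈ R, hv hWA Q v a b = 0 := by
  classical
  set R' : Finset Nat.Primes := R.image below with hR'
  set R'' : Finset (Pl K) := R'.biUnion fun q => (finite_over (K := K) q).toFinset with hR''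
  have hsub : R ⊆ R'' := by
    intro v hv
    rw [hR'', Finset.mem_biUnion]
    exact ⟨below v, Finset.mem_image_of_mem _ hv, by simpa using below_spec v⟩
  have h1 : ∑ v ∈ R, hv hWA Q v a b = ∑ v ∈ R'', hv hWA Q v a b :=
    Finset.sum_subset hsub fun v _ hv =>
      hv_unit hWA Q v (hR v hv).1 a (hR v hv).2.1 b (hR v hv).2.2
  have h2 : ∑ v ∈ R'', hv hWA Q v a b = ∑ q ∈ R', Q.h q a b := by
    rw [hR'', Finset.sum_biUnion]
    · exact Finset.sum_congr rfl fun q _ => sum_hv hWA Q q a b
    · intro q _ q' _ hqq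
      rw [Function.onFun, Finset.disjoint_left]
      intro v hv hv'
      simp only [Set.Finite.mem_toFinset, Set.mem_ofPred_eq] at hv hv'
      exact hqq (over_unique v q q' hv hv')
  rw [h1, h2]
  refine Q.recip a b R' fun q hq v hv => hR v fun hvR => hq ?_
  rw [← below_eq hv]
  exact Finset.mem_image_of_mem _ hvR

end PlaceSymb

open PlaceSymb in
theorem exists_symbData {D : LocData p K} (hWA : WeakApprox p K D) (Q : QSymb p K D) :
    Nonempty (SymbData p K D) :=
  ⟨{ h := hv hWA Q
     mul_left := fun v a a' b => Q.mul_left _ a a' _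
     mul_right := fun v a b b' => by
       rw [hv_eq hWA Q (below_spec v) ((loc_spec hWA v b).mul (loc_spec hWA v b')) a, Q.mul_right]
       rfl
     pow_left := hv_pow_left hWA Q
     pow_right := hv_pow_right hWA Q
     nondeg := hv_nondeg hWA Q
     unit := hv_unit hWA Q
     recip := hv_recip hWA Q }⟩

end Fermat.Agent.S55.Exist
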