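/-
S55 / block EXIST : node EXIST-A-2.  The cokernel of the divisor map `Kˣ → ⨁_{v ∉ T} ℤ` is finite.
-/
import Fermat.Agent.S55.Exist.Defs
import Fermat.Agent.S55.Exist.Abs.Defs
import Fermat.Agent.S55.NIT.FI.ExistsS
import Fermat.Agent.S55.NIT.FI.PrimePow

set_option autoImplicit false

namespace Fermat.Agent.S55.Exist

open IsDedekindDomain NumberField Fermat.Agent.S55.NIT.SI Fermat.Agent.S55.Exist

variable {p : ℕ} {K : Type*} [Field K] [NumberField K]

namespace FiniteCoker

theorem ord_eq_of_valuation_eq_exp (v : Pl K) (c : Kˣ) (n : ℤ)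
    (h : v.valuation K (c : K) = WithZero.exp (-n)) : ord K v (Additive.ofMul c) = n := by
  rw [valuation_eq_exp_neg_ord, WithZero.exp_inj] at h
  omega

/-- a positive multiple of every prime divisor is principal. -/
theorem exists_single_mem_range (T : Finset (Pl K)) (v : {v : Pl K // v ∉ T}) :
    ∃ h : ℕ, 0 < h ∧ Finsupp.single v (h : ℤ) ∈ (divT K T).range := by
  obtain ⟨c, h, hpos, hc, hc'⟩ := NIT.FI.exists_generator_pow K v.1
  refine ⟨h, hpos, Additive.ofMul c, ?_⟩
  ext v'
  rw [divT_apply]
  by_cases hv : v' = v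
  · subst hv
    rw [Finsupp.single_eq_same]
    exact ord_eq_of_valuation_eq_exp _ _ _ hc
  · rw [Finsupp.single_eq_of_ne hv]
    exact (ord_eq_zero_iff _ _).2 (hc' v'.1 (fun h => hv (Subtype.ext h)))

/-- the cokernel is a torsion group. -/
theorem exists_nsmul_mem_range (T : Finset (Pl K)) (D : Dv K T) :
    ∃ n : ℕ, 0 < n ∧ n • D ∈ (divT K T).range := by
  induction D using Finsupp.induction_linear with
  | zero => exact ⟨1, one_pos, by simp⟩
  | add D₁ D₂ h₁ h₂ =>
    obtain ⟨n₁, hn₁, h₁⟩ := h₁
    obtain ⟨n₂, hn₂, h₂⟩ := h₂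
    refine ⟨n₁ * n₂, Nat.mul_pos hn₁ hn₂, ?_⟩
    rw [smul_add]
    refine add_mem ?_ ?_
    · rw [mul_comm, mul_smul]
      exact AddSubgroup.nsmul_mem _ h₁ _
    · rw [mul_smul]
      exact AddSubgroup.nsmul_mem _ h₂ _
  | single v n =>
    obtain ⟨h, hpos, hh⟩ := exists_single_mem_range T v
    refine ⟨h, hpos, ?_⟩
    have : h • Finsupp.single v n = n • Finsupp.single v (h : ℤ) := by
      rw [Finsupp.smul_single, Finsupp.smul_single]
      congr 1
      simp [mul_comm]
    rw [this]
    exact AddSubgroup.zsmul_mem _ hh _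

/-- a divisor supported in the finite set `A` is in the span of the `single a 1`, `a ∈ A`. -/
theorem mk_mem_span_of_support {ι : Type*} (R : AddSubgroup (ι →₀ ℤ))
    (A : Finset ι) (D : ι →₀ ℤ) (hD : D.support ⊆ A) :
    (QuotientAddGroup.mk D : (ι →₀ ℤ) ⧸ R) ∈ Submodule.span ℤ
      ((fun a => (QuotientAddGroup.mk (Finsupp.single a (1 : ℤ)) : (ι →₀ ℤ) ⧸ R)) ''
        (A : Set ι)) := by
  have hsum : (QuotientAddGroup.mk D : (ι →₀ ℤ) ⧸ R) =
      QuotientAddGroup.mk' R (D.sum Finsupp.single) := by rw [Finsupp.sum_single]; rfl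
  rw [hsum, Finsupp.sum, map_sum]
  refine Submodule.sum_mem _ fun a ha => ?_
  rw [← Finsupp.smul_single_one, map_zsmul]
  exact Submodule.smul_mem _ _ (Submodule.subset_span ⟨a, hD ha, rfl⟩)

end FiniteCoker

open FiniteCoker

theorem index_range_divT_ne_zero (T : Finset (Pl K)) : (divT K T).range.index ≠ 0 := by
  classical
  obtain ⟨S, -, hS⟩ := NIT.FI.exists_classGen K T
  set R := (divT K T).range with hR
  set A : Finset {v : Pl K // v ∉ T} := S.subtype (· ∉ T) with hA
  have hfg : Module.Finite ℤ (Dv K T ⧸ R) := by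
    refine ⟨⟨A.image fun a => (QuotientAddGroup.mk (Finsupp.single a (1 : ℤ)) : Dv K T ⧸ R), ?_⟩⟩
    rw [eq_top_iff, Finset.coe_image]
    rintro x -
    induction x using QuotientAddGroup.induction_on with
    | H D =>
      induction D using Finsupp.induction_linear with
      | zero => exact Submodule.zero_mem _
      | add D₁ D₂ h₁ h₂ => exact Submodule.add_mem _ h₁ h₂
      | single v n =>
        by_cases hv : v.1 ∈ S
        · refine mk_mem_span_of_support R A _ ?_
          refine Finsupp.support_single_subset.trans ?_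
          rw [Finset.singleton_subset_iff, hA, Finset.mem_subtype]
          exact hv
        · obtain ⟨c, hc, hc'⟩ := hS v.1 (by simpa using hv)
          set r : Dv K T := divT K T (Additive.ofMul c) with hr
          have hrR : r ∈ R := ⟨_, rfl⟩
          have hmk : (QuotientAddGroup.mk (Finsupp.single v n) : Dv K T ⧸ R) =
              QuotientAddGroup.mk (Finsupp.single v n - n • r) := by
            rw [QuotientAddGroup.eq]
            have : -Finsupp.single v n + (Finsupp.single v n - n • r) = -(n • r) := by abel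
            rw [this]
            exact neg_mem (AddSubgroup.zsmul_mem _ hrR _)
          rw [hmk]
          refine mk_mem_span_of_support R A _ ?_
          intro v' hv'
          rw [hA, Finset.mem_subtype]
          by_contra hv'S
          rw [Finsupp.mem_support_iff] at hv'
          apply hv'
          rw [Finsupp.sub_apply, Finsupp.smul_apply, hr, divT_apply]
          by_cases hvv : v' = v
          · subst hvv
            rw [Finsupp.single_eq_same, ord_eq_of_valuation_eq_exp _ _ 1 hc]
            simp
          · rw [Finsupp.single_eq_of_ne hvv, (ord_eq_zero_iff _ _).2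
              (hc' v'.1 (by simpa using hv'S) (fun h => hvv (Subtype.ext h)))]
            simp
  have htors : Module.IsTorsion ℤ (Dv K T ⧸ R) := by
    intro x
    induction x using QuotientAddGroup.induction_on with
    | H D =>
      obtain ⟨n, hn, hD⟩ := exists_nsmul_mem_range T D
      refine ⟨⟨(n : ℤ), mem_nonZeroDivisors_of_ne_zero (by exact_mod_cast hn.ne')⟩, ?_⟩
      show (n : ℤ) • (QuotientAddGroup.mk D : Dv K T ⧸ R) = 0
      rw [natCast_zsmul, ← QuotientAddGroup.mk_nsmul, QuotientAddGroup.eq_zero_iff]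
      exact hD
  have hfin : Finite (Dv K T ⧸ R) := Module.finite_of_fg_torsion _ htors
  exact AddSubgroup.index_ne_zero_of_finite

end Fermat.Agent.S55.Exist
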