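/-
S55 / EXIST, node EXIST-A-4: `∏_{w ∈ T} [Kˣ : pow w] = p^(2(|T| + r₂))`.
-/
import Fermat.Agent.S55.Exist.Defs
import Fermat.Agent.S55.Exist.Abs.Defs
import Fermat.Agent.S55.NIT.SI.TotallyComplex

set_option autoImplicit false

namespace Fermat.Agent.S55.Exist

open IsDedekindDomain NumberField Fermat.Agent.S55.NIT.SI Fermat.Agent.S55.Exist

variable {p : ℕ} {K : Type*} [Field K] [NumberField K]

/-! ### EXIST-A-4 (file LocalIndex.lean): `∏_{w ∈ T} [Kˣ : pow w] = p^(2(|T| + r₂))`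
(`hA` is node SI-A `card_tgt_pow`; `finrank = 2 r₂` is `NIT/SI/TotallyComplex.lean`). -/

theorem prod_index_pow (hp : p.Prime) (hp2 : p ≠ 2) {ζ : K} (hζ : IsPrimitiveRoot ζ p)
    (D : LocData p K) (T : Finset (Pl K))
    (hA : Nat.card (Tgt K D.pow T) = p ^ (2 * T.card + Module.finrank ℚ K)) :
    ∏ w : T, ((D.pow w.1).toAddSubgroup).index =
      p ^ (2 * (T.card + InfinitePlace.nrComplexPlaces K)) := by
  rw [finrank_eq_two_mul hp hp2 hζ, ← mul_add, Nat.card_pi] at hA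
  rw [← hA]
  refine Finset.prod_congr rfl fun w _ => ?_
  rw [Subgroup.index_toAddSubgroup]
  rfl

end Fermat.Agent.S55.Exist
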