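/-
S55 / EXIST, node EXIST-A-1: elementary facts on `ord`, `PDiv`, `divT` and the dictionary with the
abstract definitions of `Exist/Abs/Defs.lean`.  Owner: helper159.
-/
import Fermat.Agent.S55.Exist.Defs
import Fermat.Agent.S55.Exist.Abs.Defs

set_option autoImplicit false

namespace Fermat.Agent.S55.Exist

open IsDedekindDomain NumberField Fermat.Agent.S55.NIT.SI Fermat.Agent.S55.Exist

variable {p : ℕ} {K : Type*} [Field K] [NumberField K]

/-! ### auxiliary lemmas -/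

theorem ord_ofMul_pow (v : Pl K) (x : Kˣ) (n : ℕ) :
    ord K v (Additive.ofMul (x ^ n)) = (n : ℤ) * ord K v (Additive.ofMul x) := by
  rw [ofMul_pow, map_nsmul, nsmul_eq_mul]

theorem ord_ofMul_zpow (v : Pl K) (x : Kˣ) (n : ℤ) :
    ord K v (Additive.ofMul (x ^ n)) = n * ord K v (Additive.ofMul x) := by
  rw [ofMul_zpow, map_zsmul, smul_eq_mul]

theorem ord_ofMul_mul (v : Pl K) (x y : Kˣ) :
    ord K v (Additive.ofMul (x * y)) =
      ord K v (Additive.ofMul x) + ord K v (Additive.ofMul y) := by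
  rw [ofMul_mul, map_add]

theorem ord_ofMul_inv (v : Pl K) (x : Kˣ) :
    ord K v (Additive.ofMul x⁻¹) = - ord K v (Additive.ofMul x) := by
  rw [ofMul_inv, map_neg]

theorem valuation_eq_iff_ord_eq (v : Pl K) (x y : Kˣ) :
    v.valuation K (x : K) = v.valuation K (y : K) ↔
      ord K v (Additive.ofMul x) = ord K v (Additive.ofMul y) := by
  rw [valuation_eq_exp_neg_ord, valuation_eq_exp_neg_ord, WithZero.exp_inj, neg_inj]

/-! ### EXIST-A-1 -/

theorem exists_ord_eq_one (v : Pl K) : ∃ π : Kˣ, ord K v (Additive.ofMul π) = 1 := by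
  obtain ⟨π, hπ⟩ := v.valuation_exists_uniformizer K
  have h0 : π ≠ 0 := by
    rintro rfl
    rw [map_zero] at hπ
    exact WithZero.exp_ne_zero hπ.symm
  refine ⟨Units.mk0 π h0, ?_⟩
  have h := valuation_eq_exp_neg_ord v (Units.mk0 π h0)
  rw [Units.val_mk0, hπ, WithZero.exp_inj, neg_inj] at h
  exact h.symm

theorem pdiv_iff (v : Pl K) (x : Kˣ) :
    PDiv p K v x ↔ (p : ℤ) ∣ ord K v (Additive.ofMul x) := by
  constructor
  · rintro ⟨c, hc⟩
    rw [← map_pow, ← Units.val_pow_eq_pow_val, valuation_eq_iff_ord_eq, ord_ofMul_pow] at hc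
    exact ⟨_, hc⟩
  · rintro ⟨m, hm⟩
    obtain ⟨π, hπ⟩ := exists_ord_eq_one v
    refine ⟨π ^ m, ?_⟩
    rw [← map_pow, ← Units.val_pow_eq_pow_val, valuation_eq_iff_ord_eq, ord_ofMul_pow,
      ord_ofMul_zpow, hπ, mul_one, hm]

theorem mem_Uv_iff_ord (v : Pl K) (x : Kˣ) : x ∈ Uv K v ↔ ord K v (Additive.ofMul x) = 0 := by
  rw [mem_Uv, ord_eq_zero_iff]

theorem exists_unit_mul_pow (v : Pl K) (a : Kˣ) (h : PDiv p K v a) :
    ∃ u c : Kˣ, u ∈ Uv K v ∧ a = u * c ^ p := by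
  obtain ⟨c, hc⟩ := h
  rw [← map_pow, ← Units.val_pow_eq_pow_val, valuation_eq_iff_ord_eq] at hc
  refine ⟨a * (c ^ p)⁻¹, c, ?_, by simp⟩
  rw [mem_Uv_iff_ord, ord_ofMul_mul, ord_ofMul_inv, hc, add_neg_cancel]

theorem exists_unit_mul_zpow (v : Pl K) (π : Kˣ) (hπ : ord K v (Additive.ofMul π) = 1) (b : Kˣ) :
    ∃ u : Kˣ, u ∈ Uv K v ∧ b = u * π ^ (ord K v (Additive.ofMul b)) := by
  refine ⟨b * (π ^ (ord K v (Additive.ofMul b)))⁻¹, ?_, by simp⟩
  rw [mem_Uv_iff_ord, ord_ofMul_mul, ord_ofMul_inv, ord_ofMul_zpow, hπ, mul_one, add_neg_cancel]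

theorem ker_divT (T : Finset (Pl K)) : (divT K T).ker = (KS K T).toAddSubgroup := by
  ext x
  rw [AddMonoidHom.mem_ker]
  constructor
  · intro h v hv
    have h1 : divT K T x ⟨v, by simpa using hv⟩ = 0 := by rw [h]; rfl
    rw [divT_apply] at h1
    exact (ord_eq_zero_iff v (Additive.toMul x)).1 h1
  · intro h
    ext v
    rw [divT_apply]
    exact (ord_eq_zero_iff v.1 (Additive.toMul x)).2 (h v.1 (by simpa using v.2))

/-- a divisor all of whose coefficients are divisible by `p` is `p` times a divisor -/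
theorem mem_pMul_finsupp_iff {ι : Type*} (E : ι →₀ ℤ) :
    E ∈ Abs.pMul p (ι →₀ ℤ) ↔ ∀ i, (p : ℤ) ∣ E i := by
  rw [Abs.mem_pMul]
  constructor
  · rintro ⟨y, rfl⟩ i
    exact ⟨y i, by simp⟩
  · intro h
    refine ⟨E.mapRange (· / (p : ℤ)) (by simp), ?_⟩
    ext i
    rw [Finsupp.smul_apply, Finsupp.mapRange_apply, smul_eq_mul, Int.mul_ediv_cancel' (h i)]

theorem mem_selS_iff (T : Finset (Pl K)) (x : Additive Kˣ) :
    x ∈ Abs.selS p (divT K T) ↔ Additive.toMul x ∈ VS p K T := by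
  unfold Abs.selS
  rw [AddSubgroup.mem_comap, mem_pMul_finsupp_iff, mem_VS]
  constructor
  · intro h v hv
    exact (pdiv_iff v _).2 (h ⟨v, hv⟩)
  · intro h v
    exact (pdiv_iff v.1 _).1 (h v.1 v.2)

theorem mem_pMul_iff (x : Additive Kˣ) :
    x ∈ Abs.pMul p (Additive Kˣ) ↔ ∃ z : Kˣ, z ^ p = Additive.toMul x := by
  rw [Abs.mem_pMul]
  constructor
  · rintro ⟨y, rfl⟩
    exact ⟨Additive.toMul y, by simp⟩
  · rintro ⟨z, hz⟩
    refine ⟨Additive.ofMul z, ?_⟩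
    rw [natCast_zsmul, ← ofMul_pow, hz]
    rfl

theorem mem_relQ_iff (T : Finset (Pl K)) (E : Dv K T) :
    E ∈ Abs.relQ p (divT K T) ↔
      ∃ y : Kˣ, ∀ v : {v : Pl K // v ∉ T}, (p : ℤ) ∣ E v - ord K v.1 (Additive.ofMul y) := by
  unfold Abs.relQ
  rw [AddSubgroup.mem_sup]
  constructor
  · rintro ⟨_, ⟨y, rfl⟩, b, hb, rfl⟩
    refine ⟨Additive.toMul y, fun v => ?_⟩
    rw [Finsupp.add_apply, divT_apply]
    have := (mem_pMul_finsupp_iff b).1 hb v
    simpa using this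
  · rintro ⟨y, hy⟩
    refine ⟨divT K T (Additive.ofMul y), ⟨_, rfl⟩, E - divT K T (Additive.ofMul y), ?_, by simp⟩
    rw [mem_pMul_finsupp_iff]
    intro v
    rw [Finsupp.sub_apply, divT_apply]
    exact hy v

end Fermat.Agent.S55.Exist
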