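/-
S55 / EXIST-A-5 : formal properties of the abstract local symbols `SymbData`.  Owner: helper240.
-/
import Fermat.Agent.S55.Exist.Defs
import Fermat.Agent.S55.Exist.Abs.Defs

set_option autoImplicit false

namespace Fermat.Agent.S55.Exist

open IsDedekindDomain NumberField Fermat.Agent.S55.NIT.SI Fermat.Agent.S55.Exist

variable {p : ℕ} {K : Type*} [Field K] [NumberField K]

/-- the symbol as a biadditive map on `Additive Kˣ` -/
theorem exists_hAdd {D : LocData p K} (H : SymbData p K D) (v : Pl K) :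
    ∃ f : Additive Kˣ →+ Additive Kˣ →+ ZMod p,
      ∀ a b : Kˣ, f (Additive.ofMul a) (Additive.ofMul b) = H.h v a b := by
  refine ⟨AddMonoidHom.mk' (fun a => AddMonoidHom.mk' (fun b => H.h v a.toMul b.toMul)
    (fun b b' => H.mul_right v _ _ _)) (fun a a' => ?_), fun a b => rfl⟩
  ext b
  exact H.mul_left v _ _ _

theorem h_one_left {D : LocData p K} (H : SymbData p K D) (v : Pl K) (b : Kˣ) :
    H.h v 1 b = 0 := by
  have := H.mul_left v 1 1 b
  rw [mul_one] at this
  simpa using this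

theorem h_one_right {D : LocData p K} (H : SymbData p K D) (v : Pl K) (a : Kˣ) :
    H.h v a 1 = 0 := by
  have := H.mul_right v a 1 1
  rw [mul_one] at this
  simpa using this

theorem h_zpow_right {D : LocData p K} (H : SymbData p K D) (v : Pl K) (a b : Kˣ) (n : ℤ) :
    H.h v a (b ^ n) = n • H.h v a b := by
  obtain ⟨f, hf⟩ := exists_hAdd H v
  rw [← hf, ← hf, ofMul_zpow, map_zsmul]

theorem h_pow_p_left {D : LocData p K} (H : SymbData p K D) (v : Pl K) (c b : Kˣ) :
    H.h v (c ^ p) b = 0 :=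
  H.pow_left v _ b (D.pow_mem v c)

/-- local copy of `exists_unit_mul_pow` (node A-1) -/
theorem SymbBasic.exists_unit_mul_pow_aux (v : Pl K) (a : Kˣ) (h : PDiv p K v a) :
    ∃ u c : Kˣ, u ∈ Uv K v ∧ a = u * c ^ p := by
  obtain ⟨c, hc⟩ := h
  refine ⟨a * (c ^ p)⁻¹, c, ?_, by simp⟩
  rw [mem_Uv, Units.val_mul, map_mul, hc, Units.val_inv_eq_inv_val, map_inv₀, Units.val_pow_eq_pow_val,
    map_pow]
  exact mul_inv_cancel₀ (pow_ne_zero _ (by simp))

/-- local copy of `exists_unit_mul_zpow` (node A-1) -/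
theorem SymbBasic.exists_unit_mul_zpow_aux (v : Pl K) (π : Kˣ)
    (hπ : ord K v (Additive.ofMul π) = 1) (b : Kˣ) :
    ∃ u : Kˣ, u ∈ Uv K v ∧ b = u * π ^ (ord K v (Additive.ofMul b)) := by
  refine ⟨b * (π ^ (ord K v (Additive.ofMul b)))⁻¹, ?_, by simp⟩
  rw [mem_Uv, ← ord_eq_zero_iff, ofMul_mul, map_add, ofMul_inv, map_neg, ofMul_zpow, map_zsmul, hπ]
  simp

/-- away from `p`, for `a` of valuation divisible by `p`, the symbol is "unramified in `a`". -/
theorem h_eq_ord_smul {D : LocData p K} (H : SymbData p K D) (v : Pl K) (hv : ¬ Over p K v)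
    (a : Kˣ) (ha : PDiv p K v a) (π : Kˣ) (hπ : ord K v (Additive.ofMul π) = 1) (b : Kˣ) :
    H.h v a b = ord K v (Additive.ofMul b) • H.h v a π := by
  obtain ⟨u, hu, hb⟩ := SymbBasic.exists_unit_mul_zpow_aux v π hπ b
  obtain ⟨u0, c, hu0, hac⟩ := SymbBasic.exists_unit_mul_pow_aux v a ha
  have h1 : H.h v a u = 0 := by
    rw [hac, H.mul_left, h_pow_p_left, H.unit v hv u0 hu0 u hu, add_zero]
  conv_lhs => rw [hb]
  rw [H.mul_right, h1, zero_add, h_zpow_right]

end Fermat.Agent.S55.Exist
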