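/-
S55 / EXIST-A-6 : the product formula in the form needed by `abs_main`.  Owner: helper226.
-/
import Fermat.Agent.S55.Exist.Defs
import Fermat.Agent.S55.Exist.Abs.Defs
import Fermat.Agent.S55.Exist.SymbBasic

set_option autoImplicit false

namespace Fermat.Agent.S55.Exist

open IsDedekindDomain NumberField Fermat.Agent.S55.NIT.SI Fermat.Agent.S55.Exist

variable {p : ℕ} {K : Type*} [Field K] [NumberField K]

theorem recip_form {D : LocData p K} (H : SymbData p K D) (T : Finset (Pl K))
    (hpT : ∀ v : Pl K, Over p K v → v ∈ T) (π : Pl K → Kˣ)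
    (hπ : ∀ v, ord K v (Additive.ofMul (π v)) = 1) (a : Kˣ) (ha : a ∈ VS p K T) (b : Kˣ) :
    ∑ w : T, H.h w.1 a b +
      (divT K T (Additive.ofMul b)).sum (fun v n => n • H.h v.1 a (π v.1)) = 0 := by
  classical
  set Sa : Finset (Pl K) := (finite_support_val a).toFinset with hSa
  set Sb : Finset (Pl K) := (finite_support_val b).toFinset with hSb
  set R : Finset (Pl K) := T ∪ Sa ∪ Sb with hR
  have hTR : T ⊆ R := fun v hv => Finset.mem_union_left _ (Finset.mem_union_left _ hv)
  have hrec : ∑ v ∈ R, H.h v a b = 0 := by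
    refine H.recip a b R fun v hv => ⟨fun hov => hv (hTR (hpT v hov)), ?_, ?_⟩
    · by_contra h
      refine hv (Finset.mem_union_left _ (Finset.mem_union_right _ ?_))
      rw [hSa, Set.Finite.mem_toFinset]
      exact h
    · by_contra h
      refine hv (Finset.mem_union_right _ ?_)
      rw [hSb, Set.Finite.mem_toFinset]
      exact h
  have h1 : ∑ w : T, H.h w.1 a b = ∑ v ∈ T, H.h v a b :=
    Finset.sum_coe_sort T (fun v => H.h v a b)
  have h2 : (divT K T (Additive.ofMul b)).sum (fun v n => n • H.h v.1 a (π v.1)) =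
      ∑ v ∈ R \ T, H.h v a b := by
    have hsub : (divT K T (Additive.ofMul b)).support ⊆ (R \ T).subtype (fun v => v ∉ T) := by
      intro v hv
      rw [Finsupp.mem_support_iff, divT_apply] at hv
      rw [Finset.mem_subtype, Finset.mem_sdiff]
      refine ⟨Finset.mem_union_right _ ?_, v.2⟩
      rw [hSb, Set.Finite.mem_toFinset]
      intro h
      exact hv ((ord_eq_zero_iff v.1 b).mpr h)
    rw [Finsupp.sum_of_support_subset _ hsub (fun v n => n • H.h v.1 a (π v.1))
      (fun v _ => zero_smul _ _)]
    have h3 : ∀ v : {v : Pl K // v ∉ T},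
        (divT K T (Additive.ofMul b)) v • H.h v.1 a (π v.1) = H.h v.1 a b := by
      intro v
      rw [divT_apply]
      exact (h_eq_ord_smul H v.1 (fun hov => v.2 (hpT v.1 hov)) a (ha v.1 v.2) (π v.1)
        (hπ v.1) b).symm
    rw [Finset.sum_congr rfl (fun v _ => h3 v)]
    rw [Finset.sum_subtype_eq_sum_filter (s := R \ T) (p := fun v => v ∉ T)
      (f := fun v => H.h v a b)]
    refine Finset.sum_congr ?_ (fun _ _ => rfl)
    exact Finset.filter_true_of_mem fun v hv => (Finset.mem_sdiff.mp hv).2
  rw [h1, h2, add_comm, Finset.sum_sdiff hTR, hrec]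

end Fermat.Agent.S55.Exist
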