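/-
S55 / EXIST, node EXIST-A-7: an element which is a local `p`-th power everywhere is a `p`-th power.
-/
import Fermat.Agent.S55.Exist.Defs
import Fermat.Agent.S55.Exist.Abs.Defs

set_option autoImplicit false

namespace Fermat.Agent.S55.Exist

open IsDedekindDomain NumberField Fermat.Agent.S55.NIT.SI Fermat.Agent.S55.Exist

variable {p : ℕ} {K : Type*} [Field K] [NumberField K]

theorem exists_pow_eq_of_forall_mem_pow (D : LocData p K)
    (hsep : ∀ u : Kˣ, (∀ z : Kˣ, z ^ p ≠ u) → ∃ w : Pl K, ¬ Over p K w ∧ u ∈ Uv K w ∧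
      ¬ ∃ y : Kˣ, w.valuation K ((u : K) - (y : K) ^ p) < 1)
    (a : Kˣ) (ha : ∀ v : Pl K, a ∈ D.pow v) : ∃ z : Kˣ, z ^ p = a := by
  by_contra hcon
  obtain ⟨w, hw, haU, hno⟩ := hsep a (fun z hz => hcon ⟨z, hz⟩)
  exact hno ((D.tame w hw a haU).1 (ha w))

end Fermat.Agent.S55.Exist
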