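/-
S55 / EXIST-A-3 : `[K_T : K_T ∩ Kˣᵖ] = p^(|T| + r₂)` in additive `relIndex` form.
Owner: helper72.
-/
import Fermat.Agent.S55.Exist.Defs
import Fermat.Agent.S55.Exist.Abs.Defs

set_option autoImplicit false

namespace Fermat.Agent.S55.Exist

open IsDedekindDomain NumberField Fermat.Agent.S55.NIT.SI Fermat.Agent.S55.Exist

variable {p : ℕ} {K : Type*} [Field K] [NumberField K]

private theorem mem_KS_iff (T : Finset (Pl K)) (x : Kˣ) :
    x ∈ KS K T ↔ ∀ v : Pl K, v ∉ T → v.valuation K (x : K) = 1 := by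
  constructor
  · intro h v hv
    exact h v (by simpa using hv)
  · intro h v hv
    exact h v (by simpa using hv)

private theorem ker_divT_aux (T : Finset (Pl K)) :
    (divT K T).ker = (KS K T).toAddSubgroup := by
  ext x
  rw [AddMonoidHom.mem_ker]
  change _ ↔ Additive.toMul x ∈ KS K T
  rw [mem_KS_iff]
  constructor
  · intro h v hv
    have h1 := DFunLike.congr_fun h (⟨v, hv⟩ : {v : Pl K // v ∉ T})
    rw [divT_apply] at h1
    exact (ord_eq_zero_iff v (Additive.toMul x)).1 h1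
  · intro h
    ext v
    rw [divT_apply]
    exact (ord_eq_zero_iff v.1 (Additive.toMul x)).2 (h v.1 v.2)

private theorem pMul_eq_aux :
    Abs.pMul p (Additive Kˣ) = ((powMonoidHom p : Kˣ →* Kˣ).range).toAddSubgroup := by
  ext x
  rw [Abs.mem_pMul]
  change _ ↔ Additive.toMul x ∈ (powMonoidHom p : Kˣ →* Kˣ).range
  rw [MonoidHom.mem_range]
  constructor
  · rintro ⟨y, rfl⟩
    refine ⟨Additive.toMul y, ?_⟩
    simp [powMonoidHom_apply]
  · rintro ⟨z, hz⟩
    refine ⟨Additive.ofMul z, ?_⟩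
    rw [powMonoidHom_apply] at hz
    apply Additive.toMul.injective
    rw [← hz]
    simp

private theorem mem_KS_of_pow_mem (hp : p.Prime) (T : Finset (Pl K)) (y : Kˣ)
    (h : y ^ p ∈ KS K T) : y ∈ KS K T := by
  rw [mem_KS_iff] at h ⊢
  intro v hv
  have h1 := h v hv
  rw [← ord_eq_zero_iff] at h1 ⊢
  rw [ofMul_pow, map_nsmul, smul_eq_zero] at h1
  exact h1.resolve_left hp.ne_zero

theorem relIndex_pMul_ker_divT (hp : p.Prime) (hU : SUnitIndex p K) (T : Finset (Pl K)) :
    (Abs.pMul p (Additive Kˣ)).relIndex (divT K T).ker =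
      p ^ (T.card + InfinitePlace.nrComplexPlaces K) := by
  rw [ker_divT_aux, pMul_eq_aux, Subgroup.relIndex_toAddSubgroup, ← hU T, Subgroup.relIndex]
  congr 1
  ext x
  rw [Subgroup.mem_subgroupOf, MonoidHom.mem_range, MonoidHom.mem_range]
  constructor
  · rintro ⟨y, hy⟩
    rw [powMonoidHom_apply] at hy
    refine ⟨⟨y, mem_KS_of_pow_mem hp T y (hy ▸ x.2)⟩, ?_⟩
    apply Subtype.ext
    simpa using hy
  · rintro ⟨z, hz⟩
    refine ⟨z.1, ?_⟩
    rw [← hz]
    simp

end Fermat.Agent.S55.Exist
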