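/-
S55 / EXIST, node EXIST-A-8 (helper227): the core theorem = assembly of `Abs.abs_main` with the
arithmetic nodes A-1 .. A-7.
-/
import Fermat.Agent.S55.Exist.Abs.Main
import Fermat.Agent.S55.Exist.OrdBasic
import Fermat.Agent.S55.Exist.FiniteCoker
import Fermat.Agent.S55.Exist.UnitIndex
import Fermat.Agent.S55.Exist.LocalIndex
import Fermat.Agent.S55.Exist.SymbBasic
import Fermat.Agent.S55.Exist.Recip
import Fermat.Agent.S55.Exist.SepPow

set_option autoImplicit false

namespace Fermat.Agent.S55.Exist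

open IsDedekindDomain NumberField Fermat.Agent.S55.NIT.SI Fermat.Agent.S55.Exist

variable {p : ℕ} {K : Type*} [Field K] [NumberField K]

theorem core (hp : p.Prime) (hp2 : p ≠ 2) {ζ : K} (hζ : IsPrimitiveRoot ζ p)
    (D : LocData p K) (H : SymbData p K D) (hU : SUnitIndex p K) (T : Finset (Pl K))
    (hpT : ∀ v : Pl K, Over p K v → v ∈ T)
    (hA : Nat.card (Tgt K D.pow T) = p ^ (2 * T.card + Module.finrank ℚ K))
    (hsep : ∀ u : Kˣ, (∀ z : Kˣ, z ^ p ≠ u) → ∃ w : Pl K, ¬ Over p K w ∧ u ∈ Uv K w ∧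
      ¬ ∃ y : Kˣ, w.valuation K ((u : K) - (y : K) ^ p) < 1)
    (E : Dv K T)
    (hE : ∀ a ∈ VT p K D T, ∀ v : {v : Pl K // v ∉ T}, a ∈ D.pow v.1 ∨ (p : ℤ) ∣ E v) :
    ∃ y : Kˣ, ∀ v : {v : Pl K // v ∉ T}, (p : ℤ) ∣ E v - ord K v.1 (Additive.ofMul y) := by
  classical
  choose hAdd hhAdd using fun v => exists_hAdd H v
  choose π hπ using fun v : Pl K => exists_ord_eq_one v
  have hh : ∀ (v : Pl K) (a b : Additive Kˣ),
      hAdd v a b = H.h v (Additive.toMul a) (Additive.toMul b) := fun v a b => hhAdd v _ _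
  have hnotOver : ∀ v : Pl K, v ∉ T → ¬ Over p K v := fun v hv ho => hv (hpT v ho)
  -- membership in the two Selmer groups
  have hselT : ∀ a : Additive Kˣ,
      a ∈ Abs.selT p (divT K T) (fun w : T => (D.pow w.1).toAddSubgroup) →
      Additive.toMul a ∈ VS p K T ∧ ∀ w ∈ T, Additive.toMul a ∈ D.pow w := by
    intro a ha
    rw [Abs.selT, AddSubgroup.mem_inf, AddSubgroup.mem_iInf] at ha
    exact ⟨(mem_selS_iff T a).1 ha.1, fun w hw => ha.2 ⟨w, hw⟩⟩
  rw [← mem_relQ_iff]
  refine Abs.abs_main hp (τ := T) (divT K T) (fun w => (D.pow w.1).toAddSubgroup)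
    (fun w => hAdd w.1) (fun v => (hAdd v.1).flip (Additive.ofMul (π v.1)))
    (T.card + InfinitePlace.nrComplexPlaces K)
    (index_range_divT_ne_zero T) (relIndex_pMul_ker_divT hp hU T)
    (prod_index_pow hp hp2 hζ D T hA) ?_ ?_ ?_ ?_ ?_ E ?_
  · intro w a b ha
    rw [hh]
    exact H.pow_left _ _ _ ha
  · intro w a b hb
    rw [hh]
    exact H.pow_right _ _ _ hb
  · intro w a ha
    exact H.nondeg w.1 (Additive.toMul a) fun b => by
      rw [← ha (Additive.ofMul b), hh]
      rfl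
  · intro a ha b
    have h := recip_form H T hpT π hπ (Additive.toMul a) ((mem_selS_iff T a).1 ha)
      (Additive.toMul b)
    rw [Abs.ev_apply]
    simp only [hh, AddMonoidHom.flip_apply]
    exact h
  · intro a ha hg
    obtain ⟨ha1, ha2⟩ := hselT a ha
    have hall : ∀ v : Pl K, Additive.toMul a ∈ D.pow v := by
      intro v
      by_cases hv : v ∈ T
      · exact ha2 v hv
      · refine H.nondeg v _ fun b => ?_
        have h0 : H.h v (Additive.toMul a) (π v) = 0 := by
          have := hg ⟨v, hv⟩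
          rw [AddMonoidHom.flip_apply, hh] at this
          exact this
        rw [h_eq_ord_smul H v (hnotOver v hv) _ (ha1 v hv) (π v) (hπ v) b, h0, smul_zero]
    exact (mem_pMul_iff a).2 (exists_pow_eq_of_forall_mem_pow D hsep _ hall)
  · intro a ha
    obtain ⟨ha1, ha2⟩ := hselT a ha
    have haVT : Additive.toMul a ∈ VT p K D T := mem_VT.2 ⟨ha1, ha2⟩
    rw [Abs.ev_apply]
    refine Finset.sum_eq_zero fun v _ => ?_
    show E v • (hAdd v.1).flip (Additive.ofMul (π v.1)) a = 0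
    rw [AddMonoidHom.flip_apply, hh]
    rcases hE _ haVT v with h | h
    · rw [H.pow_left _ _ _ h, smul_zero]
    · rw [zsmul_eq_mul, (ZMod.intCast_zmod_eq_zero_iff_dvd (E v) p).2 h, zero_mul]

end Fermat.Agent.S55.Exist
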