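/-
S55 / EXIST, node EXIST-A-10: `V^T / Kˣᵖ` is finite.  Owner: helper229.
From `Abs.relIndex_selS` (ABS-1), `index_range_divT_ne_zero` (A-2), `relIndex_pMul_ker_divT` (A-3)
and the dictionary of `OrdBasic.lean` (A-1).
-/
import Fermat.Agent.S55.Exist.OrdBasic
import Fermat.Agent.S55.Exist.Abs.Count
import Fermat.Agent.S55.Exist.FiniteCoker
import Fermat.Agent.S55.Exist.UnitIndex

set_option autoImplicit false

namespace Fermat.Agent.S55.Exist

open IsDedekindDomain NumberField Fermat.Agent.S55.NIT.SI Fermat.Agent.S55.Exist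

variable {p : ℕ} {K : Type*} [Field K] [NumberField K]

theorem toAddSubgroup_range_powMonoidHom :
    Subgroup.toAddSubgroup ((powMonoidHom p : Kˣ →* Kˣ).range) = Abs.pMul p (Additive Kˣ) := by
  ext x
  rw [mem_pMul_iff]
  rfl

theorem toAddSubgroup_VS (T : Finset (Pl K)) :
    Subgroup.toAddSubgroup (VS p K T) = Abs.selS p (divT K T) := by
  ext x
  rw [mem_selS_iff]
  rfl

theorem relIndex_pow_VS_ne_zero (hp : p.Prime) (hU : SUnitIndex p K) (T : Finset (Pl K)) :
    ((powMonoidHom p : Kˣ →* Kˣ).range).relIndex (VS p K T) ≠ 0 := by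
  rw [← Subgroup.relIndex_toAddSubgroup, toAddSubgroup_range_powMonoidHom, toAddSubgroup_VS]
  have hE : (Abs.pMul p (Additive Kˣ)).relIndex (divT K T).ker ≠ 0 := by
    rw [relIndex_pMul_ker_divT hp hU T]
    exact pow_ne_zero _ hp.ne_zero
  rw [Abs.relIndex_selS hp (divT K T) (index_range_divT_ne_zero T) hE]
  refine mul_ne_zero hE fun h0 => index_range_divT_ne_zero T ?_
  have hle : (divT K T).range ≤ Abs.relQ p (divT K T) := le_sup_left
  have := AddSubgroup.index_dvd_of_le hle
  rw [h0] at this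
  exact Nat.eq_zero_of_zero_dvd this

end Fermat.Agent.S55.Exist
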