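/-
S55 / block EXIST : THE TOP EXPORT, the field `T5` of `ArithInput S p` from LOC and BR.
-/
import Fermat.Agent.S55.Exist.T5.Main
import Fermat.Agent.S55.Exist.Kum.Main

set_option autoImplicit false

namespace Fermat.Agent.S55.Exist

variable {S : Finset Nat.Primes} {p : ℕ}

/-- **(T5)** : the field `T5` of `ArithInput S p`, from LOC and BR. -/
theorem T5 [Fact p.Prime] (hp2 : p ≠ 2) (hpS : ExtCitation.pPrime p ∈ S)
    {L : ∀ q, LocPkg p q} (B : BrPkg p L) :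
    ∀ U ∈ (lvlS S).carrier, ActsTrivially U (Mu p) →
    ∃ U' ∈ (lvlS S).carrier, ∃ h : U' ≤ U, ∃ _ : Finite (GQ ⧸ U'),
      ∀ x ∈ Sha S (IndMod (GQ ⧸ U') (Mu p)) 2,
        Hsm.map (IndMod.push (Mu p) (quotProj h)) 2 x = 0 :=
  T5_of_symbData hp2 hpS B fun _ _ _ _ _ hζ => exists_symbData_of Fact.out hp2 hζ L B

end Fermat.Agent.S55.Exist
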