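/-
S55 / block EXIST, node EXIST-A-9: if `a` becomes a `p`-th power in `L` then at every prime `w`
of `L` over `v ∤ p` either `a` is a local `p`-th power at `v` or `p` divides the residue degree.
Owner: helper293.
-/
import Fermat.Agent.S55.Exist.Defs
import Fermat.Agent.S55.Exist.Abs.Defs

set_option autoImplicit false

namespace Fermat.Agent.S55.Exist

open IsDedekindDomain NumberField Fermat.Agent.S55.NIT.SI Fermat.Agent.S55.Exist

variable {p : ℕ} {K : Type*} [Field K] [NumberField K]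

namespace Residue

/-- In a field, `N ^ p = x ^ f` with `f` prime to `p` makes `x` a `p`-th power. -/
lemma exists_pow_eq_of_coprime {k : Type*} [Field k] {x N : k} {p f : ℕ} (hp : 1 < p)
    (hx : x ≠ 0) (hcop : Nat.Coprime f p) (h : N ^ p = x ^ f) : ∃ y : k, y ^ p = x := by
  obtain ⟨m, -, hm⟩ := Nat.exists_mul_mod_eq_one_of_coprime hcop hp
  have h1 : f * m = p * (f * m / p) + 1 := by
    have := Nat.div_add_mod (f * m) p
    omega
  refine ⟨N ^ m * (x ^ (f * m / p))⁻¹, ?_⟩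
  have h2 : x ^ (f * m) = (x ^ (f * m / p)) ^ p * x := by
    conv_lhs => rw [h1]
    rw [pow_succ, ← pow_mul, mul_comm p]
  have h3 : (x ^ (f * m / p)) ^ p ≠ 0 := pow_ne_zero _ (pow_ne_zero _ hx)
  rw [mul_pow, inv_pow, ← pow_mul, mul_comm m p, pow_mul, h, ← pow_mul, h2]
  field_simp

/-- The unit case. -/
lemma exists_close_pow (hp : p.Prime) {L : Type*} [Field L] [NumberField L] [Algebra K L]
    (w : Pl L) (v : Pl K) [w.asIdeal.LiesOver v.asIdeal] (u : Kˣ)
    (hu : v.valuation K (u : K) = 1) (β : L) (hβ : β ^ p = algebraMap K L (u : K))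
    (hf : ¬ p ∣ Module.finrank (𝓞 K ⧸ v.asIdeal) (𝓞 L ⧸ w.asIdeal)) :
    ∃ y : Kˣ, v.valuation K ((u : K) - (y : K) ^ p) < 1 := by
  obtain ⟨n, ⟨d, hd⟩, hnd⟩ := v.exists_primeCompl_mul_eq_of_integer (K := K) (u : K) hu.le
  have hp1 : p - 1 + 1 = p := Nat.sub_add_cancel hp.one_le
  have hd1 : v.valuation K (algebraMap (𝓞 K) K d) = 1 := by
    rw [HeightOneSpectrum.valuation_of_algebraMap,
      HeightOneSpectrum.intValuation_eq_one_iff_mem_primeCompl]
    exact hd
  have hd0 : algebraMap (𝓞 K) K d ≠ 0 := by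
    intro h
    rw [h, map_zero] at hd1
    exact zero_ne_one hd1
  set u' : 𝓞 K := n * d ^ (p - 1) with hu'def
  have hu' : algebraMap (𝓞 K) K u' = (u : K) * (algebraMap (𝓞 K) K d) ^ p := by
    rw [hu'def, map_mul, ← hnd, map_pow, mul_assoc, ← pow_succ', hp1]
  have hu'1 : v.valuation K (algebraMap (𝓞 K) K u') = 1 := by
    rw [hu', map_mul, map_pow, hu, hd1, one_pow, one_mul]
  have hu'v : u' ∉ v.asIdeal := by
    intro h
    rw [← HeightOneSpectrum.valuation_lt_one_iff_mem (K := K)] at h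
    exact absurd hu'1 h.ne
  -- the integral `p`-th root
  set β' : L := β * algebraMap K L (algebraMap (𝓞 K) K d) with hβ'def
  have hβ' : β' ^ p = algebraMap K L (algebraMap (𝓞 K) K u') := by
    rw [hβ'def, mul_pow, hβ, hu', map_mul, map_pow]
  have hint : IsIntegral ℤ β' := by
    refine IsIntegral.of_pow hp.pos ?_
    rw [hβ']
    exact (RingOfIntegers.isIntegral_coe u').algebraMap
  set b : 𝓞 L := IsIntegralClosure.mk' (𝓞 L) β' hint with hbdef
  have hbβ : algebraMap (𝓞 L) L b = β' := IsIntegralClosure.algebraMap_mk' (𝓞 L) β' hint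
  have hb : b ^ p = algebraMap (𝓞 K) (𝓞 L) u' := by
    apply FaithfulSMul.algebraMap_injective (𝓞 L) L
    rw [map_pow, hbβ, hβ', ← IsScalarTower.algebraMap_apply, ← IsScalarTower.algebraMap_apply]
  -- pass to the residue fields
  let _ : Field (𝓞 K ⧸ v.asIdeal) := Ideal.Quotient.field v.asIdeal
  have hres : (Ideal.Quotient.mk w.asIdeal b) ^ p =
      algebraMap (𝓞 K ⧸ v.asIdeal) (𝓞 L ⧸ w.asIdeal) (Ideal.Quotient.mk v.asIdeal u') := by
    rw [Ideal.Quotient.algebraMap_mk_of_liesOver, ← map_pow, hb]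
  have hnorm : (Algebra.norm (𝓞 K ⧸ v.asIdeal) (Ideal.Quotient.mk w.asIdeal b)) ^ p =
      (Ideal.Quotient.mk v.asIdeal u') ^
        Module.finrank (𝓞 K ⧸ v.asIdeal) (𝓞 L ⧸ w.asIdeal) := by
    rw [← map_pow, hres, Algebra.norm_algebraMap]
  have hx0 : Ideal.Quotient.mk v.asIdeal u' ≠ 0 := by
    rw [Ne, Ideal.Quotient.eq_zero_iff_mem]
    exact hu'v
  have hcop : Nat.Coprime (Module.finrank (𝓞 K ⧸ v.asIdeal) (𝓞 L ⧸ w.asIdeal)) p :=
    ((Nat.Prime.coprime_iff_not_dvd hp).2 hf).symm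
  obtain ⟨ybar, hybar⟩ := exists_pow_eq_of_coprime (k := 𝓞 K ⧸ v.asIdeal) hp.one_lt hx0 hcop hnorm
  obtain ⟨y0, rfl⟩ := Ideal.Quotient.mk_surjective ybar
  have hy0 : u' - y0 ^ p ∈ v.asIdeal := by
    rw [← Ideal.Quotient.eq_zero_iff_mem, map_sub, map_pow, hybar, sub_self]
  have hy0ne : algebraMap (𝓞 K) K y0 ≠ 0 := by
    intro h
    have h0 : y0 = 0 := (FaithfulSMul.algebraMap_injective (𝓞 K) K) (by rw [h, map_zero])
    rw [h0, map_zero, zero_pow hp.ne_zero] at hybar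
    exact hx0 hybar.symm
  refine ⟨Units.mk0 (algebraMap (𝓞 K) K y0 / algebraMap (𝓞 K) K d) (div_ne_zero hy0ne hd0), ?_⟩
  rw [Units.val_mk0]
  have hkey : (u : K) - (algebraMap (𝓞 K) K y0 / algebraMap (𝓞 K) K d) ^ p =
      algebraMap (𝓞 K) K (u' - y0 ^ p) / (algebraMap (𝓞 K) K d) ^ p := by
    rw [map_sub, map_pow, hu', div_pow]
    field_simp
  rw [hkey, map_div₀, map_pow, hd1, one_pow, div_one,
    HeightOneSpectrum.valuation_lt_one_iff_mem]
  exact hy0

end Residue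

theorem mem_pow_or_dvd_finrank (hp : p.Prime) (D : LocData p K)
    {L : Type*} [Field L] [NumberField L] [Algebra K L] (w : Pl L) (v : Pl K)
    [w.asIdeal.LiesOver v.asIdeal] (hv : ¬ Over p K v) (a : Kˣ) (ha : PDiv p K v a)
    (α : L) (hα : α ^ p = algebraMap K L (a : K)) :
    a ∈ D.pow v ∨ p ∣ Module.finrank (𝓞 K ⧸ v.asIdeal) (𝓞 L ⧸ w.asIdeal) := by
  by_cases hf : p ∣ Module.finrank (𝓞 K ⧸ v.asIdeal) (𝓞 L ⧸ w.asIdeal)
  · exact Or.inr hf
  left
  obtain ⟨c, hc⟩ := ha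
  set u : Kˣ := a * (c ^ p)⁻¹ with hudef
  have hau : a = u * c ^ p := by rw [hudef, inv_mul_cancel_right]
  have hc0 : v.valuation K (c : K) ≠ 0 := (Valuation.ne_zero_iff _).2 c.ne_zero
  have hu : v.valuation K (u : K) = 1 := by
    rw [hudef, Units.val_mul, map_mul, hc, Units.val_inv_eq_inv_val, map_inv₀, Units.val_pow_eq_pow_val,
      map_pow]
    exact mul_inv_cancel₀ (pow_ne_zero _ hc0)
  have hcL : algebraMap K L (c : K) ≠ 0 := by
    rw [Ne, map_eq_zero]
    exact c.ne_zero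
  have hβ : (α / algebraMap K L (c : K)) ^ p = algebraMap K L (u : K) := by
    rw [div_pow, hα, hudef, Units.val_mul, Units.val_inv_eq_inv_val, Units.val_pow_eq_pow_val,
      map_mul, map_inv₀, map_pow, div_eq_mul_inv]
  obtain ⟨y, hy⟩ := Residue.exists_close_pow hp w v u hu _ hβ hf
  have hupow : u ∈ D.pow v := (D.tame v hv u hu).2 ⟨y, hy⟩
  rw [hau]
  exact (D.pow v).mul_mem hupow (D.pow_mem v c)

end Fermat.Agent.S55.Exist
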